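import Fermat.Agent.S59.H247.TFMain
import Fermat.Prelude.Def_GaloisRep_Flat
import Fermat.Prelude.Def_GaloisRep_StrictOrdinary

/-!
# S59 / G3-TF: `GaloisRep.TangentFinite` for every deformation condition which forces
"unramified outside a finite set `S`"

Main results:

* `tangentFinite_of_unramified_outside`
* `tangentFinite_flatCondition`, `tangentFinite_strictOrdinaryCondition`,
  `tangentFinite_ordinaryCondition`, and the `minimal…` variants.
-/

set_option autoImplicit false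
set_option linter.style.haveILetI false
set_option linter.unusedSectionVars false

namespace Fermat.Agent.S59.H247

open scoped TensorProduct

section Finite

variable (k : Type) [Field k] [Finite k]

theorem finite_dualNumber : Finite (DualNumber k) :=
  Finite.of_equiv (k × k) (Equiv.refl _)

/-- the restriction of an automorphism of `ℚ̄` to a subfield -/
noncomputable def restrictTo (M : IntermediateField ℚ (AlgebraicClosure ℚ))
    (σ : AlgebraicClosure ℚ ≃ₐ[ℚ] AlgebraicClosure ℚ) : M →ₐ[ℚ] AlgebraicClosure ℚ :=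
  (σ : AlgebraicClosure ℚ →ₐ[ℚ] AlgebraicClosure ℚ).comp M.val

/-- a chosen automorphism with given restriction (junk value `1` if there is none) -/
noncomputable def liftOf (M : IntermediateField ℚ (AlgebraicClosure ℚ))
    (e : M →ₐ[ℚ] AlgebraicClosure ℚ) : AlgebraicClosure ℚ ≃ₐ[ℚ] AlgebraicClosure ℚ :=
  open Classical in if h : ∃ σ, restrictTo M σ = e then h.choose else 1

theorem restrictTo_liftOf (M : IntermediateField ℚ (AlgebraicClosure ℚ))
    (σ : AlgebraicClosure ℚ ≃ₐ[ℚ] AlgebraicClosure ℚ) :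
    restrictTo M (liftOf M (restrictTo M σ)) = restrictTo M σ := by
  have h : ∃ τ, restrictTo M τ = restrictTo M σ := ⟨σ, rfl⟩
  unfold liftOf
  rw [dif_pos h]
  exact h.choose_spec

variable {k}

/-- a representation which is trivial on `G_M` is determined by its values on the chosen lifts -/
theorem rho_liftOf {M : IntermediateField ℚ (AlgebraicClosure ℚ)}
    {ρ : GaloisRepAdic (DualNumber k)}
    (hρ : ∀ σ : AlgebraicClosure ℚ ≃ₐ[ℚ] AlgebraicClosure ℚ, (∀ x ∈ M, σ x = x) → ρ.ρ σ = 1)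
    (σ : AlgebraicClosure ℚ ≃ₐ[ℚ] AlgebraicClosure ℚ) :
    ρ.ρ (liftOf M (restrictTo M σ)) = ρ.ρ σ := by
  set σ' := liftOf M (restrictTo M σ) with hσ'
  have h1 : ∀ x ∈ M, σ' x = σ x := by
    intro x hx
    have := congrArg (fun e : M →ₐ[ℚ] AlgebraicClosure ℚ => e ⟨x, hx⟩) (restrictTo_liftOf M σ)
    exact this
  have h2 : ρ.ρ (σ⁻¹ * σ') = 1 := by
    apply hρ
    intro x hx
    show σ⁻¹ (σ' x) = x
    rw [h1 x hx]
    show (σ⁻¹ * σ) x = x
    rw [inv_mul_cancel]; rfl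
  have h3 : σ' = σ * (σ⁻¹ * σ') := by rw [mul_inv_cancel_left]
  rw [h3, map_mul, h2, mul_one]

/-- the chosen basis of the underlying module -/
noncomputable def chosenBasis (ρ : GaloisRepAdic (DualNumber k)) :
    Module.Basis (Fin 2) (DualNumber k) ρ.V :=
  Module.finBasisOfFinrankEq (DualNumber k) ρ.V ρ.finrank_eq

/-- the matrix invariant of a representation -/
noncomputable def matInv (M : IntermediateField ℚ (AlgebraicClosure ℚ))
    (ρ : GaloisRepAdic (DualNumber k)) (e : M →ₐ[ℚ] AlgebraicClosure ℚ) :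
    Matrix (Fin 2) (Fin 2) (DualNumber k) :=
  LinearMap.toMatrix (chosenBasis ρ) (chosenBasis ρ) (ρ.ρ (liftOf M e))

/-- representations with the same matrix invariant are equivalent -/
theorem isEquiv_of_matInv_eq {M : IntermediateField ℚ (AlgebraicClosure ℚ)}
    {ρ₁ ρ₂ : GaloisRepAdic (DualNumber k)}
    (h₁ : ∀ σ : AlgebraicClosure ℚ ≃ₐ[ℚ] AlgebraicClosure ℚ, (∀ x ∈ M, σ x = x) → ρ₁.ρ σ = 1)
    (h₂ : ∀ σ : AlgebraicClosure ℚ ≃ₐ[ℚ] AlgebraicClosure ℚ, (∀ x ∈ M, σ x = x) → ρ₂.ρ σ = 1)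
    (h : matInv M ρ₁ = matInv M ρ₂) : ρ₁.IsEquiv ρ₂ := by
  set ℓ : ρ₁.V ≃ₗ[DualNumber k] ρ₂.V := (chosenBasis ρ₁).equiv (chosenBasis ρ₂) (Equiv.refl _)
    with hℓ
  have hℓb : ∀ i, ℓ (chosenBasis ρ₁ i) = chosenBasis ρ₂ i := fun i => by
    rw [hℓ, Module.Basis.equiv_apply]
    rfl
  refine ⟨⟨ℓ, fun σ x => ?_⟩⟩
  have hmat : LinearMap.toMatrix (chosenBasis ρ₁) (chosenBasis ρ₁) (ρ₁.ρ σ)
      = LinearMap.toMatrix (chosenBasis ρ₂) (chosenBasis ρ₂) (ρ₂.ρ σ) := by
    have := congrFun h (restrictTo M σ)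
    unfold matInv at this
    rwa [rho_liftOf h₁, rho_liftOf h₂] at this
  have hcomp : (ℓ : ρ₁.V →ₗ[DualNumber k] ρ₂.V) ∘ₗ (ρ₁.ρ σ)
      = (ρ₂.ρ σ) ∘ₗ (ℓ : ρ₁.V →ₗ[DualNumber k] ρ₂.V) := by
    apply (chosenBasis ρ₁).ext
    intro j
    simp only [LinearMap.comp_apply, LinearEquiv.coe_coe, hℓb]
    rw [← (chosenBasis ρ₁).sum_repr (ρ₁.ρ σ (chosenBasis ρ₁ j)),
      ← (chosenBasis ρ₂).sum_repr (ρ₂.ρ σ (chosenBasis ρ₂ j)), map_sum]
    refine Finset.sum_congr rfl fun i _ => ?_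
    rw [map_smul, hℓb]
    congr 1
    have := congrFun (congrFun hmat i) j
    rwa [LinearMap.toMatrix_apply, LinearMap.toMatrix_apply] at this
  exact congrArg (fun f : ρ₁.V →ₗ[DualNumber k] ρ₂.V => f x) hcomp

variable (k)

/-- **Finiteness of the set of equivalence classes of representations of bounded level.** -/
theorem finite_quotient_of_level (M : IntermediateField ℚ (AlgebraicClosure ℚ))
    [FiniteDimensional ℚ M] (P : GaloisRepAdic (DualNumber k) → Prop)
    (hP : ∀ ρ, P ρ → ∀ σ : AlgebraicClosure ℚ ≃ₐ[ℚ] AlgebraicClosure ℚ,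
      (∀ x ∈ M, σ x = x) → ρ.ρ σ = 1)
    (r : Setoid {ρ : GaloisRepAdic (DualNumber k) // P ρ})
    (hr : ∀ ρ ρ' : {ρ : GaloisRepAdic (DualNumber k) // P ρ}, ρ.1.IsEquiv ρ'.1 → r ρ ρ') :
    Finite (Quotient r) := by
  haveI := finite_dualNumber k
  haveI : Finite (Matrix (Fin 2) (Fin 2) (DualNumber k)) :=
    inferInstanceAs (Finite (Fin 2 → Fin 2 → DualNumber k))
  let g : Quotient r → ((M →ₐ[ℚ] AlgebraicClosure ℚ) → Matrix (Fin 2) (Fin 2) (DualNumber k)) :=
    fun q => matInv M q.out.1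
  refine Finite.of_injective g fun q q' hqq' => ?_
  have h1 : q.out.1.IsEquiv q'.out.1 :=
    isEquiv_of_matInv_eq (hP _ q.out.2) (hP _ q'.out.2) hqq'
  have h2 : r q.out q'.out := hr _ _ h1
  rw [← Quotient.out_eq q, ← Quotient.out_eq q']
  exact Quotient.sound h2

end Finite

section Tangent

open IsLocalRing

variable (𝒪 : Type) [CommRing 𝒪] [IsLocalRing 𝒪] [Finite (ResidueField 𝒪)]

omit [IsLocalRing 𝒪] [Finite (ResidueField 𝒪)] in
/-- base change of a trivial value is trivial (for an arbitrary algebra structure) -/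
theorem baseChange_rho_eq_one {k k' : Type} [Field k] [Field k'] {inst : Algebra k k'}
    (ρbar : ResidualGaloisRep k) {τ : AlgebraicClosure ℚ ≃ₐ[ℚ] AlgebraicClosure ℚ}
    (h : ρbar.ρ τ = 1) : (@ResidualGaloisRep.baseChange k _ k' _ inst ρbar).ρ τ = 1 := by
  show (ρbar.ρ τ).baseChange k' = 1
  rw [h, LinearMap.baseChange_one]

/-- **Tangent finiteness.** Every deformation condition which forces the deformations to the dual
numbers to be unramified outside a fixed finite set `S` of primes has a finite tangent space. -/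
theorem tangentFinite_of_unramified_outside
    (ρbar : ResidualGaloisRep (ResidueField 𝒪))
    (𝒟 : ∀ ⦃A : Type⦄ [CommRing A] [IsLocalRing A] [Algebra 𝒪 A], GaloisRepAdic A → Prop)
    (S : Finset ℕ)
    (h𝒟 : ∀ (inst : Algebra 𝒪 (DualNumber (ResidueField 𝒪)))
      (ρ : GaloisRepAdic (DualNumber (ResidueField 𝒪))),
      @𝒟 (DualNumber (ResidueField 𝒪)) _ _ inst ρ →
        ∀ q : ℕ, q.Prime → q ∉ S → ρ.IsUnramifiedAt q) :
    GaloisRep.TangentFinite 𝒪 ρbar 𝒟 := by
  obtain ⟨L₀, hL₀, hρbar⟩ := ρbar.factorsThroughFiniteLevel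
  obtain ⟨M, hM, hlevel⟩ := exists_level_dualNumber (ResidueField 𝒪) L₀ S
  unfold GaloisRep.TangentFinite
  refine finite_quotient_of_level (ResidueField 𝒪) M _ ?_ _ (fun _ _ h => h)
  rintro ρ ⟨hD, hres⟩ σ hσ
  refine hlevel ρ (h𝒟 _ ρ hD) ?_ σ hσ
  intro τ hτ
  obtain ⟨e⟩ := hres
  apply LinearMap.ext
  intro x
  apply e.toLinearEquiv.injective
  rw [e.map_apply]
  rw [baseChange_rho_eq_one ρbar (hρbar τ hτ)]
  rfl

variable (ρbar : ResidualGaloisRep (ResidueField 𝒪)) (p : ℕ) (S Smin : Finset ℕ)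

/-- tangent finiteness for a conjunction whose first component forces "unramified outside `S`" -/
theorem tangentFinite_and
    (𝒟 𝒟' : ∀ ⦃A : Type⦄ [CommRing A] [IsLocalRing A] [Algebra 𝒪 A], GaloisRepAdic A → Prop)
    (h𝒟 : ∀ (inst : Algebra 𝒪 (DualNumber (ResidueField 𝒪)))
      (ρ : GaloisRepAdic (DualNumber (ResidueField 𝒪))),
      @𝒟 (DualNumber (ResidueField 𝒪)) _ _ inst ρ →
        ∀ q : ℕ, q.Prime → q ∉ S → ρ.IsUnramifiedAt q) :
    GaloisRep.TangentFinite 𝒪 ρbar (fun _A _ _ _ ρ => 𝒟 ρ ∧ 𝒟' ρ) :=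
  tangentFinite_of_unramified_outside 𝒪 ρbar _ S fun inst ρ h => h𝒟 inst ρ h.1

theorem tangentFinite_ordinaryCondition :
    GaloisRep.TangentFinite 𝒪 ρbar (GaloisRep.ordinaryCondition 𝒪 p S) :=
  tangentFinite_of_unramified_outside 𝒪 ρbar _ S fun _ _ h => h.2.2

theorem tangentFinite_minimalOrdinaryCondition :
    GaloisRep.TangentFinite 𝒪 ρbar (GaloisRep.minimalOrdinaryCondition 𝒪 p S) :=
  tangentFinite_of_unramified_outside 𝒪 ρbar _ S fun _ _ h => h.1.2.2

theorem tangentFinite_strictOrdinaryCondition :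
    GaloisRep.TangentFinite 𝒪 ρbar (GaloisRep.strictOrdinaryCondition 𝒪 p S) :=
  tangentFinite_of_unramified_outside 𝒪 ρbar _ S fun _ _ h => h.2.2

theorem tangentFinite_minimalStrictOrdinaryCondition :
    GaloisRep.TangentFinite 𝒪 ρbar (GaloisRep.minimalStrictOrdinaryCondition 𝒪 p S) :=
  tangentFinite_of_unramified_outside 𝒪 ρbar _ S fun _ _ h => h.1.2.2

theorem tangentFinite_flatCondition :
    GaloisRep.TangentFinite 𝒪 ρbar (GaloisRep.flatCondition 𝒪 p S) :=
  tangentFinite_of_unramified_outside 𝒪 ρbar _ S fun _ _ h => h.2.2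

theorem tangentFinite_minimalFlatCondition :
    GaloisRep.TangentFinite 𝒪 ρbar (GaloisRep.minimalFlatCondition 𝒪 p S) :=
  tangentFinite_of_unramified_outside 𝒪 ρbar _ S fun _ _ h => h.1.2.2

/-- the strict-ordinary Taylor–Wiles condition of the frozen statement S56 -/
theorem tangentFinite_strictOrdinary_unipotent :
    GaloisRep.TangentFinite 𝒪 ρbar (fun _A _ _ _ ρ =>
      GaloisRep.strictOrdinaryCondition 𝒪 p S ρ ∧
        ∀ q ∈ Smin, q.Prime → q ≠ p → ρ.IsUnipotentOnInertiaAt q) :=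
  tangentFinite_of_unramified_outside 𝒪 ρbar _ S fun _ _ h => h.1.2.2

/-- the flat Taylor–Wiles condition of the frozen statement S56 -/
theorem tangentFinite_flat_unipotent :
    GaloisRep.TangentFinite 𝒪 ρbar (fun _A _ _ _ ρ =>
      GaloisRep.flatCondition 𝒪 p S ρ ∧
        ∀ q ∈ Smin, q.Prime → q ≠ p → ρ.IsUnipotentOnInertiaAt q) :=
  tangentFinite_of_unramified_outside 𝒪 ρbar _ S fun _ _ h => h.1.2.2

end Tangent

end Fermat.Agent.S59.H247
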