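import Mathlib
import Fermat.Agent.S54.ValRing

/-!
# S59 / G3-TF, part 2: a Kummer generator whose valuation is not in the value group of the base
generates a totally (tamely or wildly) ramified extension — elementwise form

Let `A` be a valuation subring of `ℚ̄`, `F ⊆ ℚ̄` a subfield, `α ^ p = a ∈ F` and assume that
`v(α) ^ k ∉ v(Fˣ)` for `0 < k < p`.  If `σ` fixes `F` and `σ α = ζ' α` with `ζ' ^ p = 1`, then
`σ x - x ∈ 𝔪_A` for every `x ∈ F(α) ∩ A`.
-/

set_option autoImplicit false

namespace Fermat.Agent.S59.H247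

open Polynomial Fermat.Agent.S54

variable (A : ValuationSubring (AlgebraicClosure ℚ))
  (F : IntermediateField ℚ (AlgebraicClosure ℚ))

/-- Every element of `F(α)`, `α ^ p ∈ F`, is a polynomial of degree `< p` in `α`. -/
theorem exists_coeff_of_mem_adjoin {p : ℕ} (hp : 0 < p) {α : AlgebraicClosure ℚ} (a : F)
    (hα : α ^ p = (a : AlgebraicClosure ℚ)) {x : AlgebraicClosure ℚ}
    (hx : x ∈ IntermediateField.adjoin F {α}) :
    ∃ c : ℕ → F, x = ∑ i ∈ Finset.range p, (c i : AlgebraicClosure ℚ) * α ^ i := by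
  set g : F[X] := X ^ p - C a with hg
  have hgm : g.Monic := monic_X_pow_sub_C a hp.ne'
  have hgα : aeval α g = 0 := by
    rw [hg, map_sub, map_pow, aeval_X, aeval_C, hα]
    exact sub_self _
  have hint : IsIntegral F α := ⟨g, hgm, hgα⟩
  have hx' : x ∈ (IntermediateField.adjoin F {α}).toSubalgebra := hx
  rw [IntermediateField.adjoin_simple_toSubalgebra_of_isAlgebraic hint.isAlgebraic,
    Algebra.adjoin_singleton_eq_range_aeval] at hx'
  obtain ⟨f, rfl⟩ := hx'
  set r := f %ₘ g with hr
  have hfr : aeval α f = aeval α r := by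
    conv_lhs => rw [← modByMonic_add_div f g]
    rw [map_add, map_mul, hgα, zero_mul, add_zero]
  have hdeg : r.natDegree < p := by
    have h1 : g.natDegree = p := natDegree_X_pow_sub_C
    have hg1 : g ≠ 1 := by
      intro h
      rw [h, natDegree_one] at h1
      exact hp.ne h1
    have := natDegree_modByMonic_lt f hgm hg1
    rwa [h1] at this
  refine ⟨fun i => r.coeff i, ?_⟩
  show (aeval α) f = _
  rw [hfr, aeval_eq_sum_range' hdeg]
  refine Finset.sum_congr rfl fun i _ => ?_
  rw [Algebra.smul_def]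
  rfl

variable {A F}

/-- The terms `c_i α^i` with `c_i ≠ 0` have pairwise distinct valuations. -/
theorem valuation_term_ne {p : ℕ} {α : AlgebraicClosure ℚ} (hα0 : α ≠ 0)
    (hval : ∀ c : F, c ≠ 0 → ∀ k : ℕ, 0 < k → k < p →
      A.valuation α ^ k ≠ A.valuation (c : AlgebraicClosure ℚ))
    {i j : ℕ} (hij : i < j) (hj : j < p) {ci cj : F} (hci : ci ≠ 0) (hcj : cj ≠ 0) :
    A.valuation ((ci : AlgebraicClosure ℚ) * α ^ i) ≠
      A.valuation ((cj : AlgebraicClosure ℚ) * α ^ j) := by
  intro h
  have hvα : A.valuation α ≠ 0 := (Valuation.ne_zero_iff _).2 hα0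
  have hcj' : A.valuation (cj : AlgebraicClosure ℚ) ≠ 0 :=
    (Valuation.ne_zero_iff _).2 (by exact_mod_cast hcj)
  have hk : 0 < j - i := Nat.sub_pos_of_lt hij
  have hk' : j - i < p := lt_of_le_of_lt (Nat.sub_le j i) hj
  apply hval (cj⁻¹ * ci) (mul_ne_zero (inv_ne_zero hcj) hci) (j - i) hk hk'
  have hji : j = i + (j - i) := by omega
  rw [map_mul, map_mul, map_pow, map_pow] at h
  have h2 : A.valuation α ^ j = A.valuation α ^ i * A.valuation α ^ (j - i) := by
    conv_lhs => rw [hji, pow_add]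
  rw [h2] at h
  have h3 : A.valuation (ci : AlgebraicClosure ℚ) =
      A.valuation (cj : AlgebraicClosure ℚ) * A.valuation α ^ (j - i) := by
    have hvi : A.valuation α ^ i ≠ 0 := pow_ne_zero _ hvα
    apply mul_right_cancel₀ hvi
    rw [h, mul_assoc, mul_comm (A.valuation α ^ (j - i))]
  push_cast
  rw [map_mul, map_inv₀, h3, ← mul_assoc, inv_mul_cancel₀ hcj', one_mul]

/-- **Kummer generators of non-divisible valuation are moved by inertia.** -/
theorem kummer_sub_mem_nonunits {p : ℕ} (hp : 0 < p) {α ζ' : AlgebraicClosure ℚ} (a : F)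
    (hα : α ^ p = (a : AlgebraicClosure ℚ)) (hα0 : α ≠ 0) (hζ' : ζ' ^ p = 1)
    (σ : AlgebraicClosure ℚ ≃ₐ[ℚ] AlgebraicClosure ℚ) (hσF : ∀ x ∈ F, σ x = x)
    (hσα : σ α = ζ' * α)
    (hval : ∀ c : F, c ≠ 0 → ∀ k : ℕ, 0 < k → k < p →
      A.valuation α ^ k ≠ A.valuation (c : AlgebraicClosure ℚ))
    {x : AlgebraicClosure ℚ} (hx : x ∈ IntermediateField.adjoin F {α}) (hxA : x ∈ A) :
    σ x - x ∈ A.nonunits := by
  classical
  obtain ⟨c, rfl⟩ := exists_coeff_of_mem_adjoin F hp a hα hx
  set t : ℕ → AlgebraicClosure ℚ := fun i => (c i : AlgebraicClosure ℚ) * α ^ i with ht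
  have hvα : A.valuation α ≠ 0 := (Valuation.ne_zero_iff _).2 hα0
  have hc0 : ∀ i, c i = 0 → A.valuation (t i) = 0 := by
    intro i hi
    simp [ht, hi]
  have hcne : ∀ i, c i ≠ 0 → A.valuation (t i) ≠ 0 := by
    intro i hi
    rw [Valuation.ne_zero_iff]
    exact mul_ne_zero (by exact_mod_cast hi) (pow_ne_zero _ hα0)
  have hdist : ∀ i j, i < p → j < p → i ≠ j → c i ≠ 0 → c j ≠ 0 →
      A.valuation (t i) ≠ A.valuation (t j) := by
    intro i j hi hj hij hci hcj
    rcases lt_or_gt_of_ne hij with h | h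
    · exact valuation_term_ne hα0 hval h hj hci hcj
    · exact (valuation_term_ne hα0 hval h hi hcj hci).symm
  -- step 1: all terms are integral at `A`
  have hle : ∀ i ∈ Finset.range p, A.valuation (t i) ≤ 1 := by
    obtain ⟨i₀, hi₀, hmax⟩ := Finset.exists_max_image (Finset.range p)
      (fun i => A.valuation (t i)) ⟨0, Finset.mem_range.2 hp⟩
    by_cases h1 : A.valuation (t i₀) ≤ 1
    · exact fun i hi => (hmax i hi).trans h1
    · exfalso
      rw [not_le] at h1
      have hci₀ : c i₀ ≠ 0 := by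
        intro h
        rw [hc0 i₀ h] at h1
        exact not_lt.2 zero_le_one h1
      have hlt : ∀ i ∈ Finset.range p \ {i₀}, A.valuation (t i) < A.valuation (t i₀) := by
        intro i hi
        rw [Finset.mem_sdiff, Finset.mem_singleton] at hi
        refine lt_of_le_of_ne (hmax i hi.1) ?_
        by_cases hci : c i = 0
        · rw [hc0 i hci]
          exact (hcne i₀ hci₀).symm
        · exact hdist i i₀ (Finset.mem_range.1 hi.1) (Finset.mem_range.1 hi₀) hi.2 hci hci₀
      have hsum := Valuation.map_sum_eq_of_lt A.valuation hi₀ hlt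
      have hxle : A.valuation (∑ i ∈ Finset.range p, t i) ≤ 1 :=
        (A.valuation_le_one_iff _).2 hxA
      rw [hsum] at hxle
      exact not_lt.2 hxle h1
  -- step 2: formula for `σ x - x`
  have hσt : ∀ i, σ (t i) = t i * ζ' ^ i := by
    intro i
    simp only [ht]
    rw [map_mul, map_pow, hσα, hσF _ (c i).2, mul_pow]
    ring
  have hdiff : σ (∑ i ∈ Finset.range p, t i) - ∑ i ∈ Finset.range p, t i
      = ∑ i ∈ Finset.range p, t i * (ζ' ^ i - 1) := by
    rw [map_sum, ← Finset.sum_sub_distrib]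
    refine Finset.sum_congr rfl fun i _ => ?_
    rw [hσt]
    ring
  -- step 3: each term has valuation `< 1`
  have hζle : A.valuation ζ' ≤ 1 := by
    by_contra h
    rw [not_le] at h
    have := one_lt_pow₀ h hp.ne'
    rw [← map_pow, hζ', map_one] at this
    exact lt_irrefl _ this
  have hζi : ∀ i : ℕ, A.valuation (ζ' ^ i - 1) ≤ 1 := by
    intro i
    refine (Valuation.map_sub _ _ _).trans (max_le ?_ ?_)
    · rw [map_pow]
      exact pow_le_one₀ zero_le hζle
    · rw [map_one]
  rw [ValuationSubring.mem_nonunits_iff, hdiff]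
  refine Valuation.map_sum_lt _ one_ne_zero fun i hi => ?_
  rcases Nat.eq_zero_or_pos i with rfl | hi0
  · simp
  · have hti : A.valuation (t i) < 1 := by
      refine lt_of_le_of_ne (hle i hi) ?_
      by_cases hci : c i = 0
      · rw [hc0 i hci]
        exact zero_ne_one
      · intro h1
        apply hval (c i)⁻¹ (inv_ne_zero hci) i hi0 (Finset.mem_range.1 hi)
        have hcv : A.valuation ((c i : F) : AlgebraicClosure ℚ) ≠ 0 :=
          (Valuation.ne_zero_iff _).2 (by exact_mod_cast hci)
        simp only [ht] at h1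
        rw [map_mul, map_pow] at h1
        push_cast
        rw [map_inv₀]
        exact eq_inv_of_mul_eq_one_right h1
    rw [map_mul]
    calc A.valuation (t i) * A.valuation (ζ' ^ i - 1) ≤ A.valuation (t i) * 1 :=
          mul_le_mul_right (hζi i) _
      _ = A.valuation (t i) := mul_one _
      _ < 1 := hti

end Fermat.Agent.S59.H247
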