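import Fermat.Agent.S55.Bridge.RestrictInertia

/-!
# S59 / G3-TF, part 1: lifting inertia elements over an arbitrary base field

Generalisation of `Fermat.Agent.S55.Bridge.exists_mem_inertia_restrict_eq` (which needs the
intermediate field to be normal over `ℚ`): here the intermediate field `N` only has to be stable
under the given automorphism `σ`, and the hypotheses are only on algebraic integers of `N`.

* `exists_smul_eq_of_integral`: places of `ℚ̄` inducing the same prime on the integers of `N`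
  are conjugate under `G_N`.
* `exists_mem_inertia_restrict_eq_of_integral`: if `σ N ⊆ N`, `σ⁻¹ N ⊆ N` and `σ b - b ∈ 𝔪_A` for
  all algebraic integers `b ∈ N`, then `σ|_N` is the restriction of an element of `I_A`.
-/

set_option autoImplicit false
set_option linter.style.haveILetI false

namespace Fermat.Agent.S59.H247

open scoped Pointwise
open Fermat.Agent.S54 Fermat.Agent.S55.Bridge

attribute [local instance] isAlgebraic_Qbar isGalois_Qbar

section Lift

variable (N : IntermediateField ℚ (AlgebraicClosure ℚ))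

/-- Places of `ℚ̄` which induce the same prime on the algebraic integers of `N` are conjugate
under `G_N`. -/
theorem exists_smul_eq_of_integral {A A' : ValuationSubring (AlgebraicClosure ℚ)}
    {q : ℕ} (hq : q.Prime) (hA : A.LiesOverPrime q) (hA' : A'.LiesOverPrime q)
    (h : ∀ x ∈ N, IsIntegral ℤ x → (x ∈ A.nonunits ↔ x ∈ A'.nonunits)) :
    ∃ τ ∈ N.fixingSubgroup, τ • A = A' := by
  letI : TopologicalSpace (integralClosure ℤ (AlgebraicClosure ℚ)) := ⊥
  haveI : DiscreteTopology (integralClosure ℤ (AlgebraicClosure ℚ)) := ⟨rfl⟩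
  haveI := compactSpace_fixingSubgroup N
  haveI := totallyDisconnectedSpace_fixingSubgroup N
  haveI := continuousSMul_fixingSubgroup N
  haveI := smulCommClass_fixedPoints N
  haveI := isInvariant_fixedPoints N
  haveI := primeBelow_isPrime A
  haveI := primeBelow_isPrime A'
  have hunder : (primeBelow A).under
      (FixedPoints.subalgebra ℤ (integralClosure ℤ (AlgebraicClosure ℚ)) ↥N.fixingSubgroup)
      = (primeBelow A').under
      (FixedPoints.subalgebra ℤ (integralClosure ℤ (AlgebraicClosure ℚ)) ↥N.fixingSubgroup) := by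
    ext a
    rw [Ideal.mem_comap, Ideal.mem_comap]
    show ((a.1 : integralClosure ℤ (AlgebraicClosure ℚ)) : AlgebraicClosure ℚ) ∈ A.nonunits ↔
      ((a.1 : integralClosure ℤ (AlgebraicClosure ℚ)) : AlgebraicClosure ℚ) ∈ A'.nonunits
    have haN : ((a.1 : integralClosure ℤ (AlgebraicClosure ℚ)) : AlgebraicClosure ℚ) ∈ N := by
      apply mem_of_fixed_by_fixingSubgroup
      intro g hg
      have := a.2 ⟨g, hg⟩
      exact congrArg Subtype.val this
    exact h _ haN a.1.2
  obtain ⟨τ, hτ⟩ := Algebra.IsInvariant.exists_smul_of_under_eq_of_profinite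
    (A := FixedPoints.subalgebra ℤ (integralClosure ℤ (AlgebraicClosure ℚ)) ↥N.fixingSubgroup)
    (G := ↥N.fixingSubgroup) (primeBelow A) (primeBelow A') hunder
  refine ⟨τ.1, τ.2, ?_⟩
  apply valuationSubring_ext_of_primeBelow hq (liesOverPrime_smul A τ.1 q hA) hA'
  rw [primeBelow_smul, hτ]
  rfl

/-- If `σ` and `σ⁻¹` preserve `N` and `σ` moves every algebraic integer of `N` by an element of
the maximal ideal of `A`, then `σ|_N` is the restriction of an element of the decomposition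
group of `A`. -/
theorem exists_mem_decomposition_restrict_eq_of_integral
    {A : ValuationSubring (AlgebraicClosure ℚ)} {q : ℕ} (hq : q.Prime) (hA : A.LiesOverPrime q)
    (σ : AlgebraicClosure ℚ ≃ₐ[ℚ] AlgebraicClosure ℚ)
    (hσN : ∀ x ∈ N, σ x ∈ N) (hσN' : ∀ x ∈ N, σ⁻¹ x ∈ N)
    (hσI : ∀ x ∈ N, IsIntegral ℤ x → σ x - x ∈ A.nonunits) :
    ∃ σ' ∈ A.decompositionSubgroup ℚ, ∀ x ∈ N, σ' x = σ x := by
  have hA' : (σ • A).LiesOverPrime q := liesOverPrime_smul A σ q hA
  have hcomp : ∀ x ∈ N, IsIntegral ℤ x → (x ∈ (σ • A).nonunits ↔ x ∈ A.nonunits) := by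
    intro x hx hxi
    rw [mem_nonunits_smul_iff]
    have hy : σ⁻¹ x ∈ N := hσN' x hx
    have hyi : IsIntegral ℤ (σ⁻¹ x) := hxi.map (σ⁻¹ : AlgebraicClosure ℚ ≃ₐ[ℚ] AlgebraicClosure ℚ)
    have h1 := hσI (σ⁻¹ x) hy hyi
    have h2 : σ (σ⁻¹ x) = x := by
      show (σ * σ⁻¹) x = x
      rw [mul_inv_cancel]
      rfl
    rw [h2] at h1
    constructor
    · intro h3
      have := A.nonunits.add_mem h1 h3
      rwa [sub_add_cancel] at this
    · intro h3
      have := A.nonunits.sub_mem h3 h1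
      rwa [sub_sub_cancel] at this
  obtain ⟨τ, hτ, hτA⟩ := exists_smul_eq_of_integral N hq hA' hA hcomp
  refine ⟨τ * σ, ?_, ?_⟩
  · rw [MulAction.mem_stabilizer_iff, mul_smul]
    exact hτA
  · intro x hx
    show τ (σ x) = σ x
    exact (IntermediateField.mem_fixingSubgroup_iff N _).1 hτ _ (hσN x hx)

/-- **Lifting inertia.** If `σ` and `σ⁻¹` preserve `N` and `σ` moves every algebraic integer of
`N` by an element of the maximal ideal of `A`, then `σ|_N` is the restriction of an element of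
the inertia group of `A`. -/
theorem exists_mem_inertia_restrict_eq_of_integral
    {A : ValuationSubring (AlgebraicClosure ℚ)} {q : ℕ} (hq : q.Prime) (hA : A.LiesOverPrime q)
    (σ : AlgebraicClosure ℚ ≃ₐ[ℚ] AlgebraicClosure ℚ)
    (hσN : ∀ x ∈ N, σ x ∈ N) (hσN' : ∀ x ∈ N, σ⁻¹ x ∈ N)
    (hσI : ∀ x ∈ N, IsIntegral ℤ x → σ x - x ∈ A.nonunits) :
    ∃ σ' ∈ A.inertiaSubgroupIn ℚ, ∀ x ∈ N, σ' x = σ x := by
  -- step 1: we may assume `σ ∈ D_A`
  obtain ⟨σ₁, hσ₁D, hσ₁N⟩ :=
    exists_mem_decomposition_restrict_eq_of_integral N hq hA σ hσN hσN' hσI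
  have hσ₁I : ∀ x ∈ N, IsIntegral ℤ x → σ₁ x - x ∈ A.nonunits := fun x hx hxi => by
    rw [hσ₁N x hx]; exact hσI x hx hxi
  -- step 2: the profinite group `G_N` acting on `ℤ̄`
  letI : TopologicalSpace (integralClosure ℤ (AlgebraicClosure ℚ)) := ⊥
  haveI : DiscreteTopology (integralClosure ℤ (AlgebraicClosure ℚ)) := ⟨rfl⟩
  haveI := compactSpace_fixingSubgroup N
  haveI := totallyDisconnectedSpace_fixingSubgroup N
  haveI := continuousSMul_fixingSubgroup N
  haveI := smulCommClass_fixedPoints N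
  haveI := isInvariant_fixedPoints N
  haveI hQprime := primeBelow_isPrime A
  haveI hlies : (primeBelow A).LiesOver ((primeBelow A).under
      (FixedPoints.subalgebra ℤ (integralClosure ℤ (AlgebraicClosure ℚ)) ↥N.fixingSubgroup)) :=
    ⟨rfl⟩
  have hσ₁Q : σ₁ • primeBelow A = primeBelow A := by
    rw [← primeBelow_smul, MulAction.mem_stabilizer_iff.1 hσ₁D]
  -- the automorphism of `ℤ̄ / Q` induced by `σ₁`
  let e₀ : (integralClosure ℤ (AlgebraicClosure ℚ) ⧸ primeBelow A) ≃+*
      (integralClosure ℤ (AlgebraicClosure ℚ) ⧸ primeBelow A) :=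
    Ideal.quotientEquiv (primeBelow A) (primeBelow A)
      (MulSemiringAction.toRingEquiv (AlgebraicClosure ℚ ≃ₐ[ℚ] AlgebraicClosure ℚ)
        (integralClosure ℤ (AlgebraicClosure ℚ)) σ₁) hσ₁Q.symm
  have he₀ : ∀ b : integralClosure ℤ (AlgebraicClosure ℚ),
      e₀ (Ideal.Quotient.mk _ b) = Ideal.Quotient.mk _ (σ₁ • b) := fun b => rfl
  let e : (integralClosure ℤ (AlgebraicClosure ℚ) ⧸ primeBelow A) ≃ₐ[
      (FixedPoints.subalgebra ℤ (integralClosure ℤ (AlgebraicClosure ℚ)) ↥N.fixingSubgroup) ⧸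
        (primeBelow A).under
          (FixedPoints.subalgebra ℤ (integralClosure ℤ (AlgebraicClosure ℚ)) ↥N.fixingSubgroup)]
      (integralClosure ℤ (AlgebraicClosure ℚ) ⧸ primeBelow A) :=
    AlgEquiv.ofRingEquiv (f := e₀) (by
      intro y
      obtain ⟨a, rfl⟩ := Ideal.Quotient.mk_surjective y
      show e₀ (Ideal.Quotient.mk _ (a.1)) = Ideal.Quotient.mk _ (a.1)
      rw [he₀, Ideal.Quotient.eq, mem_primeBelow]
      have haN : ((a.1 : integralClosure ℤ (AlgebraicClosure ℚ)) : AlgebraicClosure ℚ) ∈ N := by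
        apply mem_of_fixed_by_fixingSubgroup
        intro g hg
        have := a.2 ⟨g, hg⟩
        exact congrArg Subtype.val this
      exact hσ₁I _ haN a.1.2)
  obtain ⟨τ, hτ⟩ := Ideal.Quotient.stabilizerHom_surjective_of_profinite
    (G := ↥N.fixingSubgroup)
    ((primeBelow A).under
      (FixedPoints.subalgebra ℤ (integralClosure ℤ (AlgebraicClosure ℚ)) ↥N.fixingSubgroup))
    (primeBelow A) e
  -- `τ ∈ G_N` stabilises `Q` and induces the same automorphism as `σ₁`
  have hτQ : (τ.1.1 : AlgebraicClosure ℚ ≃ₐ[ℚ] AlgebraicClosure ℚ) • primeBelow A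
      = primeBelow A := τ.2
  have hτD : (τ.1.1 : AlgebraicClosure ℚ ≃ₐ[ℚ] AlgebraicClosure ℚ) ∈ A.decompositionSubgroup ℚ := by
    rw [MulAction.mem_stabilizer_iff]
    apply valuationSubring_ext_of_primeBelow hq (liesOverPrime_smul A _ q hA) hA
    rw [primeBelow_smul, hτQ]
  have hτσ : ∀ b : integralClosure ℤ (AlgebraicClosure ℚ),
      (τ.1.1 : AlgebraicClosure ℚ ≃ₐ[ℚ] AlgebraicClosure ℚ) (b : AlgebraicClosure ℚ)
        - σ₁ (b : AlgebraicClosure ℚ) ∈ A.nonunits := by
    intro b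
    have h1 := congrArg (fun f => f (Ideal.Quotient.mk _ b)) hτ
    simp only [Ideal.Quotient.stabilizerHom_apply] at h1
    have h2 : e (Ideal.Quotient.mk _ b) = Ideal.Quotient.mk _ (σ₁ • b) := he₀ b
    rw [h2, Ideal.Quotient.eq, mem_primeBelow] at h1
    exact h1
  refine ⟨(τ.1.1)⁻¹ * σ₁, ?_, ?_⟩
  · apply mem_inertia_of_forall_integral A hq hA
      (Subgroup.mul_mem _ (Subgroup.inv_mem _ hτD) hσ₁D)
    intro b hb
    have h3 := hτσ ⟨b, hb⟩
    have h4 : ((τ.1.1)⁻¹ * σ₁) b - b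
        = (τ.1.1 : AlgebraicClosure ℚ ≃ₐ[ℚ] AlgebraicClosure ℚ)⁻¹
            (-((τ.1.1 : AlgebraicClosure ℚ ≃ₐ[ℚ] AlgebraicClosure ℚ) b - σ₁ b)) := by
      rw [map_neg, map_sub]
      have h5 : (τ.1.1 : AlgebraicClosure ℚ ≃ₐ[ℚ] AlgebraicClosure ℚ)⁻¹ ((τ.1.1) b) = b := by
        show ((τ.1.1)⁻¹ * τ.1.1) b = b
        rw [inv_mul_cancel]
        rfl
      rw [h5]
      show (τ.1.1)⁻¹ (σ₁ b) - b = _
      ring
    rw [h4, mem_nonunits_of_mem_decomposition A (Subgroup.inv_mem _ hτD)]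
    exact A.nonunits.neg_mem h3
  · intro x hx
    rw [← hσ₁N x hx]
    show (τ.1.1)⁻¹ (σ₁ x) = σ₁ x
    have hmem : σ₁ x ∈ N := by rw [hσ₁N x hx]; exact hσN x hx
    exact (IntermediateField.mem_fixingSubgroup_iff N _).1 (Subgroup.inv_mem _ τ.1.2) _ hmem

end Lift

end Fermat.Agent.S59.H247
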