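import Fermat.Agent.S59.H247.TFSelmer
import Fermat.Prelude.Def_GaloisRep_DeformationCondition

/-!
# S59 / G3-TF, part 6: representations over the dual numbers unramified outside `S`

For a finite field `k`, a finite level `L₀` and a finite set `S` of primes there is a finite
level `M` such that every `ρ : G_ℚ → GL₂(k[ε])` which is unramified outside `S` and whose
reduction is trivial on `G_{L₀}` is trivial on `G_M`.
-/

set_option autoImplicit false
set_option linter.style.haveILetI false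
set_option linter.unusedSectionVars false

namespace Fermat.Agent.S59.H247

open Fermat.Agent.S54 Fermat.Agent.S55.Bridge
open scoped TensorProduct

attribute [local instance] isAlgebraic_Qbar

/-- over a field, linear functionals separate points (instance-explicit form) -/
theorem eq_zero_of_forall_functional {p : ℕ} [Fact p.Prime] {E : Type} [AddCommGroup E]
    [Module (ZMod p) E] (x : E) (h : ∀ φ : E →ₗ[ZMod p] ZMod p, φ x = 0) : x = 0 :=
  (Module.forall_dual_apply_eq_zero_iff (ZMod p) x).1 h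

/-- `exists_bound_field` for maps to a `ZMod p`-module -/
theorem eq_zero_of_bound_field {p : ℕ} [Fact p.Prime] {E : Type} [AddCommGroup E]
    [Module (ZMod p) E] {G : Type} (P : (G → ZMod p) → Prop) (f : G → E)
    (hM : ∀ χ : G → ZMod p, P χ → ∀ σ : G, χ σ = 0)
    (hf : ∀ φ : E →ₗ[ZMod p] ZMod p, P (fun τ => φ (f τ))) (σ : G) : f σ = 0 :=
  eq_zero_of_forall_functional _ fun φ => hM _ (hf φ) σ

/-- `exists_bound_field` for maps to an arbitrary abelian group killed by `p`. -/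
theorem exists_bound_field_group (F : IntermediateField ℚ (AlgebraicClosure ℚ))
    [FiniteDimensional ℚ F] {p : ℕ} (hp : p.Prime) {ζ : AlgebraicClosure ℚ}
    (hζ : IsPrimitiveRoot ζ p) (hζF : ζ ∈ F) (S : Finset ℕ) :
    ∃ M : IntermediateField ℚ (AlgebraicClosure ℚ), FiniteDimensional ℚ M ∧ F ≤ M ∧
      ∀ (E : Type) [AddCommGroup E], (∀ x : E, p • x = 0) →
      ∀ f : (AlgebraicClosure ℚ ≃ₐ[ℚ] AlgebraicClosure ℚ) → E,
        (∀ σ τ, σ ∈ F.fixingSubgroup → τ ∈ F.fixingSubgroup → f (σ * τ) = f σ + f τ) →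
        (∃ N : IntermediateField ℚ (AlgebraicClosure ℚ), FiniteDimensional ℚ N ∧
          ∀ σ ∈ F.fixingSubgroup, (∀ x ∈ N, σ x = x) → f σ = 0) →
        (∀ q : ℕ, q.Prime → q ∉ S → ∀ A : ValuationSubring (AlgebraicClosure ℚ),
          A.LiesOverPrime q → ∀ σ ∈ A.inertiaSubgroupIn ℚ, σ ∈ F.fixingSubgroup → f σ = 0) →
        ∀ σ ∈ M.fixingSubgroup, f σ = 0 := by
  obtain ⟨M, hfd, hFM, hM⟩ := exists_bound_field F hp hζ hζF S
  refine ⟨M, hfd, hFM, ?_⟩
  intro E _ hE f hadd hcont hunr σ hσ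
  haveI : Fact p.Prime := ⟨hp⟩
  refine @eq_zero_of_bound_field p _ E _ (AddCommGroup.zmodModule hE)
    {σ : AlgebraicClosure ℚ ≃ₐ[ℚ] AlgebraicClosure ℚ // σ ∈ M.fixingSubgroup}
    (fun χ => ∃ χ' : (AlgebraicClosure ℚ ≃ₐ[ℚ] AlgebraicClosure ℚ) → ZMod p,
      (∀ σ, χ σ = χ' σ.1) ∧
      (∀ σ τ, σ ∈ F.fixingSubgroup → τ ∈ F.fixingSubgroup → χ' (σ * τ) = χ' σ + χ' τ) ∧
      (∃ N : IntermediateField ℚ (AlgebraicClosure ℚ), FiniteDimensional ℚ N ∧
          ∀ σ ∈ F.fixingSubgroup, (∀ x ∈ N, σ x = x) → χ' σ = 0) ∧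
      (∀ q : ℕ, q.Prime → q ∉ S → ∀ A : ValuationSubring (AlgebraicClosure ℚ),
          A.LiesOverPrime q → ∀ σ ∈ A.inertiaSubgroupIn ℚ, σ ∈ F.fixingSubgroup → χ' σ = 0))
    (fun σ => f σ.1) ?_ ?_ ⟨σ, hσ⟩
  · rintro χ ⟨χ', h0, h1, h2, h3⟩ σ
    rw [h0]
    exact hM χ' h1 h2 h3 σ.1 σ.2
  · intro φ
    refine ⟨fun τ => φ (f τ), fun _ => rfl, ?_, ?_, ?_⟩
    · intro σ τ hσ hτ
      show φ (f (σ * τ)) = φ (f σ) + φ (f τ)
      rw [hadd σ τ hσ hτ, map_add]
    · obtain ⟨N, hN, h⟩ := hcont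
      refine ⟨N, hN, fun σ hσ hσN => ?_⟩
      show φ (f σ) = 0
      rw [h σ hσ hσN, map_zero]
    · intro q hq hqS A hA σ hσI hσF
      show φ (f σ) = 0
      rw [hunr q hq hqS A hA σ hσI hσF, map_zero]

section DualNumber

variable {k : Type} [Field k]

theorem dualNumber_mul_eq_zero {a b : DualNumber k}
    (ha : a ∈ IsLocalRing.maximalIdeal (DualNumber k))
    (hb : b ∈ IsLocalRing.maximalIdeal (DualNumber k)) : a * b = 0 := by
  rw [DualNumber.maximalIdeal_eq_span_singleton_eps, Ideal.mem_span_singleton'] at ha hb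
  obtain ⟨a', rfl⟩ := ha
  obtain ⟨b', rfl⟩ := hb
  have : (DualNumber.eps : DualNumber k) * DualNumber.eps = 0 := DualNumber.eps_mul_eps
  calc a' * DualNumber.eps * (b' * DualNumber.eps)
      = a' * b' * (DualNumber.eps * DualNumber.eps) := by ring
    _ = 0 := by rw [this, mul_zero]

theorem dualNumber_natCast_eq_zero (p : ℕ) [CharP k p] : (p : DualNumber k) = 0 := by
  have h : ((p : k) : k) = 0 := CharP.cast_eq_zero k p
  have : (p : DualNumber k) = algebraMap k (DualNumber k) (p : k) := by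
    rw [map_natCast]
  rw [this, h, map_zero]

variable (ρ : GaloisRepAdic (DualNumber k))

/-- the square of the maximal ideal kills `V` -/
theorem smul_smul_top_eq_zero {a : DualNumber k}
    (ha : a ∈ IsLocalRing.maximalIdeal (DualNumber k)) {w : ρ.V}
    (hw : w ∈ IsLocalRing.maximalIdeal (DualNumber k) • (⊤ : Submodule (DualNumber k) ρ.V)) :
    a • w = 0 := by
  refine Submodule.smul_induction_on hw ?_ ?_
  · intro b hb x _
    rw [smul_smul, dualNumber_mul_eq_zero ha hb, zero_smul]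
  · intro x y hx hy
    rw [smul_add, hx, hy, add_zero]

/-- an endomorphism kills `𝔪 V` if it maps `V` into `𝔪 V` -/
theorem end_apply_eq_zero {T : Module.End (DualNumber k) ρ.V}
    (hT : ∀ v, T v ∈ IsLocalRing.maximalIdeal (DualNumber k) • (⊤ : Submodule (DualNumber k) ρ.V))
    {w : ρ.V}
    (hw : w ∈ IsLocalRing.maximalIdeal (DualNumber k) • (⊤ : Submodule (DualNumber k) ρ.V)) :
    T w = 0 := by
  refine Submodule.smul_induction_on hw ?_ ?_
  · intro b hb x _
    rw [map_smul]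
    exact smul_smul_top_eq_zero ρ hb (hT x)
  · intro x y hx hy
    rw [map_add, hx, hy, add_zero]

/-- if the residual representation is trivial at `σ`, then `ρ σ - 1` maps `V` into `𝔪 V` -/
theorem sub_mem_of_residual_eq_one {σ : AlgebraicClosure ℚ ≃ₐ[ℚ] AlgebraicClosure ℚ}
    (h : ρ.residual.ρ σ = 1) (v : ρ.V) :
    ρ.ρ σ v - v ∈ IsLocalRing.maximalIdeal (DualNumber k) • (⊤ : Submodule (DualNumber k) ρ.V) := by
  have h1 : (ρ.ρ σ).baseChange (IsLocalRing.ResidueField (DualNumber k))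
      ((1 : IsLocalRing.ResidueField (DualNumber k)) ⊗ₜ[DualNumber k] v)
      = (1 : IsLocalRing.ResidueField (DualNumber k)) ⊗ₜ[DualNumber k] v := by
    have := congrArg (fun T => T ((1 : IsLocalRing.ResidueField (DualNumber k)) ⊗ₜ[DualNumber k] v)) h
    exact this
  rw [LinearMap.baseChange_tmul] at h1
  have h2 : (1 : IsLocalRing.ResidueField (DualNumber k)) ⊗ₜ[DualNumber k] (ρ.ρ σ v - v) = 0 := by
    rw [TensorProduct.tmul_sub, h1, sub_self]
  have h3 := LinearMap.ker_tensorProductMk (R := DualNumber k) (Q := ρ.V)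
    (I := IsLocalRing.maximalIdeal (DualNumber k))
  rw [← h3]
  exact h2

theorem maximalIdeal_sq_smul_top_eq_bot :
    (IsLocalRing.maximalIdeal (DualNumber k) ^ 2) • (⊤ : Submodule (DualNumber k) ρ.V) = ⊥ := by
  have h : IsLocalRing.maximalIdeal (DualNumber k) ^ 2 = ⊥ := by
    rw [eq_bot_iff, pow_two, Ideal.mul_le]
    intro a ha b hb
    rw [Ideal.mem_bot]
    exact dualNumber_mul_eq_zero ha hb
  rw [h, Submodule.bot_smul]

end DualNumber

section Main

variable (k : Type) [Field k] [Finite k]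

/-- **Uniform level for representations over the dual numbers unramified outside `S`.** -/
theorem exists_level_dualNumber (L₀ : IntermediateField ℚ (AlgebraicClosure ℚ))
    [FiniteDimensional ℚ L₀] (S : Finset ℕ) :
    ∃ M : IntermediateField ℚ (AlgebraicClosure ℚ), FiniteDimensional ℚ M ∧
      ∀ ρ : GaloisRepAdic (DualNumber k),
        (∀ q : ℕ, q.Prime → q ∉ S → ρ.IsUnramifiedAt q) →
        (∀ σ : AlgebraicClosure ℚ ≃ₐ[ℚ] AlgebraicClosure ℚ, (∀ x ∈ L₀, σ x = x) →
          ρ.residual.ρ σ = 1) →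
        ∀ σ : AlgebraicClosure ℚ ≃ₐ[ℚ] AlgebraicClosure ℚ, (∀ x ∈ M, σ x = x) → ρ.ρ σ = 1 := by
  classical
  set p := ringChar k with hpdef
  haveI : CharP k p := ringChar.charP k
  have hp : p.Prime := CharP.char_is_prime k p
  haveI : NeZero p := ⟨hp.ne_zero⟩
  obtain ⟨ζ, hζ⟩ := HasEnoughRootsOfUnity.exists_primitiveRoot (AlgebraicClosure ℚ) p
  have hζint : IsIntegral ℚ ζ := (Algebra.IsAlgebraic.isAlgebraic (R := ℚ) ζ).isIntegral
  haveI : FiniteDimensional ℚ ↥(IntermediateField.adjoin ℚ {ζ}) :=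
    IntermediateField.adjoin.finiteDimensional hζint
  set F : IntermediateField ℚ (AlgebraicClosure ℚ) := L₀ ⊔ IntermediateField.adjoin ℚ {ζ}
    with hF
  haveI : FiniteDimensional ℚ F := IntermediateField.finiteDimensional_sup _ _
  have hζF : ζ ∈ F :=
    (le_sup_right : IntermediateField.adjoin ℚ {ζ} ≤ F)
      (IntermediateField.mem_adjoin_simple_self ℚ ζ)
  have hL₀F : L₀ ≤ F := le_sup_left
  obtain ⟨M, hfd, hFM, hM⟩ := exists_bound_field_group F hp hζ hζF S
  refine ⟨M, hfd, fun ρ hunr hres σ₀ hσ₀ => ?_⟩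
  have hE : ∀ T : Module.End (DualNumber k) ρ.V, p • T = 0 := by
    intro T
    rw [← Nat.cast_smul_eq_nsmul (DualNumber k), dualNumber_natCast_eq_zero, zero_smul]
  have hmem : ∀ σ ∈ F.fixingSubgroup, ∀ v : ρ.V, ρ.ρ σ v - v ∈
      IsLocalRing.maximalIdeal (DualNumber k) • (⊤ : Submodule (DualNumber k) ρ.V) := by
    intro σ hσ v
    apply sub_mem_of_residual_eq_one
    apply hres
    intro x hx
    exact (IntermediateField.mem_fixingSubgroup_iff F σ).1 hσ x (hL₀F hx)
  have key := hM (Module.End (DualNumber k) ρ.V) hE (fun σ => ρ.ρ σ - 1) ?_ ?_ ?_ σ₀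
    ((IntermediateField.mem_fixingSubgroup_iff M σ₀).2 hσ₀)
  · exact sub_eq_zero.1 key
  · intro σ τ hσ hτ
    apply LinearMap.ext
    intro v
    have h1 : (ρ.ρ σ - 1) (ρ.ρ τ v - v) = 0 :=
      end_apply_eq_zero ρ (T := ρ.ρ σ - 1) (fun w => hmem σ hσ w) (hmem τ hτ v)
    simp only [map_mul, LinearMap.sub_apply, Module.End.mul_apply, Module.End.one_apply,
      LinearMap.add_apply, map_sub] at h1 ⊢
    have h2 : ρ.ρ σ (ρ.ρ τ v) = ρ.ρ σ v + (ρ.ρ τ v - v) := by
      have := sub_eq_zero.1 h1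
      rw [sub_eq_iff_eq_add] at this
      rw [this]
      abel
    rw [h2]
    abel
  · obtain ⟨N, hN, h⟩ := ρ.isAdicContinuous 2
    refine ⟨N, hN, fun σ _ hσN => ?_⟩
    apply LinearMap.ext
    intro v
    have h1 := h σ hσN v
    rw [maximalIdeal_sq_smul_top_eq_bot, Submodule.mem_bot] at h1
    simpa using h1
  · intro q hq hqS A hA σ hσI _
    show ρ.ρ σ - 1 = 0
    rw [hunr q hq hqS A hA σ hσI, sub_self]

end Main

end Fermat.Agent.S59.H247
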