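import Fermat.Agent.S59.H247.TFLift
import Fermat.Agent.S59.H247.TFKummer

/-!
# S59 / G3-TF, part 3: unramified Kummer extensions have `p`-divisible valuations

`F ⊆ ℚ̄` a number field, `v` a prime of `𝓞 F`, `α ^ p = a ∈ Fˣ`, and some `σ₁ ∈ G_F` moves `α`.
If for every place `A` of `ℚ̄` over `v` the group `I_A ∩ G_F` fixes `α`, then `p ∣ ord_v a`.
-/

set_option autoImplicit false
set_option linter.style.haveILetI false
set_option linter.unusedSectionVars false

namespace Fermat.Agent.S59.H247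

open NumberField IsDedekindDomain Fermat.Agent.S54 Fermat.Agent.S55.Bridge

/-- number field structure on a finite-dimensional subfield of `ℚ̄` -/
theorem numberField_of_finiteDimensional (F : IntermediateField ℚ (AlgebraicClosure ℚ))
    [FiniteDimensional ℚ F] : NumberField F := ⟨⟩

attribute [local instance] numberField_of_finiteDimensional

variable (F : IntermediateField ℚ (AlgebraicClosure ℚ)) [FiniteDimensional ℚ F]

/-- the embedding of the ring of integers of `F` into `ℚ̄` -/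
noncomputable def intEmb : 𝓞 F →+* AlgebraicClosure ℚ :=
  (algebraMap F (AlgebraicClosure ℚ)).comp (algebraMap (𝓞 F) F)

theorem intEmb_apply (x : 𝓞 F) : intEmb F x = ((x : F) : AlgebraicClosure ℚ) := rfl

theorem intEmb_injective : Function.Injective (intEmb F) :=
  (algebraMap F (AlgebraicClosure ℚ)).injective.comp RingOfIntegers.coe_injective

theorem intEmb_isIntegral (x : 𝓞 F) : IsIntegral ℤ (intEmb F x) := by
  have h : IsIntegral ℤ (x : F) := RingOfIntegers.isIntegral_coe x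
  exact h.map (IsScalarTower.toAlgHom ℤ F (AlgebraicClosure ℚ))

theorem intEmb_mem (A : ValuationSubring (AlgebraicClosure ℚ)) (x : 𝓞 F) : intEmb F x ∈ A :=
  isIntegral_mem_valuationSubring A (intEmb_isIntegral F x)

/-- `A` lies over the prime `v` of `𝓞 F`. -/
def LiesOverHS (A : ValuationSubring (AlgebraicClosure ℚ)) (v : HeightOneSpectrum (𝓞 F)) : Prop :=
  ∀ x : 𝓞 F, x ∈ v.asIdeal → intEmb F x ∈ A.nonunits

variable {F}

theorem LiesOverHS.mem_iff {A : ValuationSubring (AlgebraicClosure ℚ)}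
    {v : HeightOneSpectrum (𝓞 F)} (hA : LiesOverHS F A v) (x : 𝓞 F) :
    intEmb F x ∈ A.nonunits ↔ x ∈ v.asIdeal := by
  refine ⟨fun hx => ?_, hA x⟩
  by_contra hxv
  obtain ⟨y, i, hi, hyi⟩ := v.isMaximal.exists_inv hxv
  have h1 : intEmb F (y * x + i) ∈ A.nonunits := by
    rw [map_add, map_mul]
    refine A.nonunits.add_mem ?_ (hA i hi)
    rw [ValuationSubring.mem_nonunits_iff, map_mul]
    rw [ValuationSubring.mem_nonunits_iff] at hx
    calc A.valuation (intEmb F y) * A.valuation (intEmb F x)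
        ≤ 1 * A.valuation (intEmb F x) :=
          mul_le_mul_left ((A.valuation_le_one_iff _).2 (intEmb_mem F A y)) _
      _ = A.valuation (intEmb F x) := one_mul _
      _ < 1 := hx
  rw [hyi, map_one, ValuationSubring.mem_nonunits_iff, map_one] at h1
  exact lt_irrefl _ h1

/-- Every prime of `𝓞 F` lies below some place of `ℚ̄`. -/
theorem exists_liesOverHS (v : HeightOneSpectrum (𝓞 F)) :
    ∃ A : ValuationSubring (AlgebraicClosure ℚ), LiesOverHS F A v := by
  let A₀ : Subring (AlgebraicClosure ℚ) := (intEmb F).range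
  let I : Ideal A₀ := Ideal.map (intEmb F).rangeRestrict v.asIdeal
  have hI : I ≠ ⊤ := by
    intro h
    have h1 : (1 : A₀) ∈ I := by rw [h]; trivial
    rw [Ideal.mem_map_iff_of_surjective _ (intEmb F).rangeRestrict_surjective] at h1
    obtain ⟨x, hx, hx1⟩ := h1
    have h2 : intEmb F x = 1 := congrArg Subtype.val hx1
    have h3 : x = 1 := intEmb_injective F (by rw [h2, map_one])
    rw [h3] at hx
    exact v.isPrime.ne_top ((Ideal.eq_top_iff_one _).2 hx)
  obtain ⟨A, -, hA⟩ := Ideal.image_subset_nonunits_valuationSubring I hI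
  refine ⟨A, fun x hx => hA ?_⟩
  exact ⟨(intEmb F).rangeRestrict x, Ideal.mem_map_of_mem _ hx, rfl⟩

/-- A place over `v` lies over a rational prime contained in `v`. -/
theorem LiesOverHS.exists_prime {A : ValuationSubring (AlgebraicClosure ℚ)}
    {v : HeightOneSpectrum (𝓞 F)} (hA : LiesOverHS F A v) :
    ∃ q : ℕ, q.Prime ∧ A.LiesOverPrime q ∧ (q : 𝓞 F) ∈ v.asIdeal := by
  haveI : (v.asIdeal.under ℤ).IsPrime := inferInstance
  have hne : v.asIdeal.under ℤ ≠ ⊥ := Ideal.under_ne_bot ℤ v.ne_bot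
  have hgen := Submodule.IsPrincipal.prime_generator_of_isPrime (v.asIdeal.under ℤ) hne
  have hg_mem : Submodule.IsPrincipal.generator (v.asIdeal.under ℤ) ∈ v.asIdeal.under ℤ :=
    Submodule.IsPrincipal.generator_mem _
  set g := Submodule.IsPrincipal.generator (v.asIdeal.under ℤ) with hg
  have hq : g.natAbs.Prime := Int.prime_iff_natAbs_prime.1 hgen
  have hqmem : ((g.natAbs : ℕ) : ℤ) ∈ v.asIdeal.under ℤ := by
    rcases Int.natAbs_eq g with h | h
    · rw [← h]; exact hg_mem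
    · have : ((g.natAbs : ℕ) : ℤ) = -g := by omega
      rw [this]
      exact (v.asIdeal.under ℤ).neg_mem hg_mem
  have hqv : ((g.natAbs : ℕ) : 𝓞 F) ∈ v.asIdeal := by
    have := Ideal.mem_comap.1 hqmem
    simpa using this
  refine ⟨g.natAbs, hq, ?_, hqv⟩
  have := hA _ hqv
  rw [map_natCast] at this
  exact this

/-- comparison of the `v`-adic valuation with the valuation of a place over `v` -/
theorem LiesOverHS.valuation_lt_one {A : ValuationSubring (AlgebraicClosure ℚ)}
    {v : HeightOneSpectrum (𝓞 F)} (hA : LiesOverHS F A v) (u : F)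
    (hu : v.valuation F u < 1) : A.valuation (u : AlgebraicClosure ℚ) < 1 := by
  obtain ⟨n, d, hnd⟩ := v.exists_primeCompl_mul_eq_of_integer u hu.le
  have hd1 : v.valuation F (algebraMap (𝓞 F) F d) = 1 :=
    (HeightOneSpectrum.valuation_eq_one_iff_notMem v).2 d.2
  have hn : v.valuation F (algebraMap (𝓞 F) F n) < 1 := by
    rw [← hnd, map_mul, hd1, mul_one]; exact hu
  have hnv : n ∈ v.asIdeal := (v.valuation_lt_one_iff_mem n).1 hn
  have hAn : A.valuation (intEmb F n) < 1 := (ValuationSubring.mem_nonunits_iff A).1 (hA n hnv)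
  have hAd : A.valuation (intEmb F d) = 1 :=
    le_antisymm ((A.valuation_le_one_iff _).2 (intEmb_mem F A d))
      (not_lt.1 fun h => d.2 ((hA.mem_iff d).1 ((ValuationSubring.mem_nonunits_iff A).2 h)))
  have hmul : (u : AlgebraicClosure ℚ) * intEmb F d = intEmb F n := by
    have := congrArg (algebraMap F (AlgebraicClosure ℚ)) hnd
    rw [map_mul] at this
    exact this
  calc A.valuation (u : AlgebraicClosure ℚ)
      = A.valuation (u : AlgebraicClosure ℚ) * A.valuation (intEmb F d) := by rw [hAd, mul_one]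
    _ = A.valuation (intEmb F n) := by rw [← map_mul, hmul]
    _ < 1 := hAn

/-- a unit at the place `A` over `v` has trivial `v`-adic valuation -/
theorem LiesOverHS.valuationOfNeZero_eq_one {A : ValuationSubring (AlgebraicClosure ℚ)}
    {v : HeightOneSpectrum (𝓞 F)} (hA : LiesOverHS F A v) (u : Fˣ)
    (hu : A.valuation (((u : F) : AlgebraicClosure ℚ)) = 1) : v.valuationOfNeZero u = 1 := by
  have h1 : ¬ v.valuation F (u : F) < 1 := fun h => by
    have := hA.valuation_lt_one _ h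
    rw [hu] at this
    exact lt_irrefl _ this
  have h2 : ¬ v.valuation F ((u⁻¹ : Fˣ) : F) < 1 := fun h => by
    have := hA.valuation_lt_one _ h
    rw [Units.val_inv_eq_inv_val] at this
    push_cast at this
    rw [map_inv₀, hu, inv_one] at this
    exact lt_irrefl _ this
  have h3 : v.valuation F (u : F) = 1 := by
    rcases lt_trichotomy (v.valuation F (u : F)) 1 with h | h | h
    · exact absurd h h1
    · exact h
    · exfalso
      apply h2
      rw [Units.val_inv_eq_inv_val, map_inv₀]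
      exact inv_lt_one_of_one_lt₀ h
  rw [← WithZero.coe_inj, HeightOneSpectrum.valuationOfNeZero_eq]
  exact h3

/-- an automorphism fixing `F` and multiplying `α` by an element of `F` preserves `F(α)` -/
theorem map_mem_adjoin_of_mul {p : ℕ} (hp : 0 < p) {α ξ : AlgebraicClosure ℚ} (a : F)
    (hα : α ^ p = (a : AlgebraicClosure ℚ)) (hξ : ξ ∈ F)
    (τ : AlgebraicClosure ℚ ≃ₐ[ℚ] AlgebraicClosure ℚ) (hτF : ∀ x ∈ F, τ x = x)
    (hτα : τ α = ξ * α) {x : AlgebraicClosure ℚ} (hx : x ∈ IntermediateField.adjoin F {α}) :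
    τ x ∈ IntermediateField.adjoin F {α} := by
  obtain ⟨c, rfl⟩ := exists_coeff_of_mem_adjoin F hp a hα hx
  rw [map_sum]
  refine sum_mem fun i _ => ?_
  rw [map_mul, map_pow, hτα, hτF _ (c i).2]
  have hαm : α ∈ IntermediateField.adjoin F {α} := IntermediateField.mem_adjoin_simple_self F α
  have hξm : ξ ∈ IntermediateField.adjoin F {α} :=
    (IntermediateField.adjoin F {α}).algebraMap_mem ⟨ξ, hξ⟩
  have hcm : ((c i : F) : AlgebraicClosure ℚ) ∈ IntermediateField.adjoin F {α} :=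
    (IntermediateField.adjoin F {α}).algebraMap_mem (c i)
  exact mul_mem hcm (pow_mem (mul_mem hξm hαm) i)

/-- **Unramified Kummer extensions have `p`-divisible valuations.** -/
theorem dvd_valuationOfNeZero_of_inertia_fixes {p : ℕ} (hp : p.Prime)
    (v : HeightOneSpectrum (𝓞 F)) {α ζ' : AlgebraicClosure ℚ} (a : Fˣ)
    (hα : α ^ p = (((a : F)) : AlgebraicClosure ℚ)) (hζ' : ζ' ^ p = 1) (hζ'1 : ζ' ≠ 1)
    (hζ'F : ζ' ∈ F) (σ₁ : AlgebraicClosure ℚ ≃ₐ[ℚ] AlgebraicClosure ℚ)
    (hσ₁F : ∀ x ∈ F, σ₁ x = x) (hσ₁α : σ₁ α = ζ' * α)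
    (hunr : ∀ A : ValuationSubring (AlgebraicClosure ℚ), LiesOverHS F A v →
      ∀ σ ∈ A.inertiaSubgroupIn ℚ, (∀ x ∈ F, σ x = x) → σ α = α) :
    (p : ℤ) ∣ Multiplicative.toAdd (v.valuationOfNeZero a) := by
  obtain ⟨A, hA⟩ := exists_liesOverHS v
  obtain ⟨q, hq, hAq, -⟩ := hA.exists_prime
  by_contra hdvd
  have ha0 : (((a : F)) : AlgebraicClosure ℚ) ≠ 0 := by
    have := a.ne_zero
    exact_mod_cast this
  have hα0 : α ≠ 0 := by
    intro h
    rw [h, zero_pow hp.ne_zero] at hα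
    exact ha0 hα.symm
  have hval : ∀ c : F, c ≠ 0 → ∀ k : ℕ, 0 < k → k < p →
      A.valuation α ^ k ≠ A.valuation (c : AlgebraicClosure ℚ) := by
    intro c hc k hk hkp h
    have hcv : A.valuation (c : AlgebraicClosure ℚ) ≠ 0 :=
      (Valuation.ne_zero_iff _).2 (by exact_mod_cast hc)
    have h1 : A.valuation ((((a ^ k * (Units.mk0 c hc ^ p)⁻¹ : Fˣ) : F)) : AlgebraicClosure ℚ)
        = 1 := by
      rw [Units.val_mul, Units.val_inv_eq_inv_val, Units.val_pow_eq_pow_val,
        Units.val_pow_eq_pow_val, Units.val_mk0]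
      push_cast
      rw [map_mul, map_pow, map_inv₀, map_pow, ← hα, map_pow, ← pow_mul, mul_comm p k, pow_mul, h]
      exact mul_inv_cancel₀ (pow_ne_zero _ hcv)
    have h2 := hA.valuationOfNeZero_eq_one _ h1
    rw [map_mul, map_inv, map_pow, map_pow] at h2
    have h3 : (k : ℤ) * Multiplicative.toAdd (v.valuationOfNeZero a)
        = p * Multiplicative.toAdd (v.valuationOfNeZero (Units.mk0 c hc)) := by
      have := congrArg Multiplicative.toAdd h2
      simp only [toAdd_mul, toAdd_inv, toAdd_pow, toAdd_one, nsmul_eq_mul] at this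
      linarith
    apply hdvd
    have hcop : IsCoprime (p : ℤ) (k : ℤ) := by
      rw [Int.isCoprime_iff_gcd_eq_one, Int.gcd_natCast_natCast]
      exact (Nat.coprime_of_lt_prime hk.ne' hkp hp)
    exact hcop.dvd_of_dvd_mul_left (Dvd.intro _ h3.symm)
  set N : IntermediateField ℚ (AlgebraicClosure ℚ) :=
    (IntermediateField.adjoin F {α}).restrictScalars ℚ with hN
  have hmemN : ∀ x, x ∈ N ↔ x ∈ IntermediateField.adjoin F {α} := fun x => Iff.rfl
  have hσ₁inv : ∀ x, σ₁⁻¹ (σ₁ x) = x := fun x => by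
    show (σ₁⁻¹ * σ₁) x = x
    rw [inv_mul_cancel]; rfl
  have hσ₁ζ : σ₁ ζ' = ζ' := hσ₁F _ hζ'F
  have hζ'0 : ζ' ≠ 0 := by
    intro h
    rw [h, zero_pow hp.ne_zero] at hζ'
    exact zero_ne_one hζ'
  have hinvF : ∀ x ∈ F, σ₁⁻¹ x = x := fun x hx => by
    conv_lhs => rw [← hσ₁F x hx]
    exact hσ₁inv x
  have hinvα : σ₁⁻¹ α = ζ'⁻¹ * α := by
    have : σ₁ (ζ'⁻¹ * α) = α := by
      rw [map_mul, map_inv₀, hσ₁ζ, hσ₁α, ← mul_assoc, inv_mul_cancel₀ hζ'0, one_mul]
    conv_lhs => rw [← this]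
    exact hσ₁inv _
  have hσN : ∀ x ∈ N, σ₁ x ∈ N := fun x hx =>
    map_mem_adjoin_of_mul hp.pos (a : F) hα hζ'F σ₁ hσ₁F hσ₁α hx
  have hσN' : ∀ x ∈ N, σ₁⁻¹ x ∈ N := fun x hx =>
    map_mem_adjoin_of_mul hp.pos (a : F) hα (F.inv_mem hζ'F) σ₁⁻¹ hinvF hinvα hx
  have hσI : ∀ x ∈ N, IsIntegral ℤ x → σ₁ x - x ∈ A.nonunits := fun x hx hxi =>
    kummer_sub_mem_nonunits hp.pos (a : F) hα hα0 hζ' σ₁ hσ₁F hσ₁α hval hx
      (isIntegral_mem_valuationSubring A hxi)
  obtain ⟨σ', hσ'I, hσ'N⟩ :=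
    exists_mem_inertia_restrict_eq_of_integral N hq hAq σ₁ hσN hσN' hσI
  have hFN : ∀ x ∈ F, x ∈ N := fun x hx =>
    (IntermediateField.adjoin F {α}).algebraMap_mem ⟨x, hx⟩
  have hσ'F : ∀ x ∈ F, σ' x = x := fun x hx => by rw [hσ'N x (hFN x hx), hσ₁F x hx]
  have hσ'α : σ' α = α := hunr A hA σ' hσ'I hσ'F
  rw [hσ'N α (IntermediateField.mem_adjoin_simple_self F α), hσ₁α] at hσ'α
  apply hζ'1
  have := mul_right_cancel₀ hα0 (hσ'α.trans (one_mul α).symm)
  exact this

end Fermat.Agent.S59.H247
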