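import Mathlib
import Fermat.Agent.S55.Bridge.Restrict

/-!
# S59 / G3-TF, part 4: Lagrange resolvents

Let `F ⊆ ℚ̄` be a number field containing a primitive `p`-th root of unity `ζ`, and let
`χ : G_F → ℤ/p` be a continuous additive character with `χ σ₁ ≠ 0`.  Then there are `α ≠ 0` in
`ℚ̄` and `j ≠ 0` in `ℤ/p` with `σ α = ζ ^ (χ σ * j) α` for all `σ ∈ G_F`.
-/

set_option autoImplicit false
set_option linter.style.haveILetI false
set_option linter.unusedSectionVars false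

namespace Fermat.Agent.S59.H247

open Fermat.Agent.S55.Bridge

attribute [local instance] isAlgebraic_Qbar isGalois_Qbar

section Char

variable {p : ℕ} [hpf : Fact p.Prime] {ζ : AlgebraicClosure ℚ}

/-- the character `ℤ/p → ℚ̄ˣ`, `i ↦ ζ ^ i` -/
noncomputable def zpow (ζ : AlgebraicClosure ℚ) (i : ZMod p) : AlgebraicClosure ℚ := ζ ^ i.val

theorem zpow_add (hζ : ζ ^ p = 1) (i j : ZMod p) : zpow ζ (i + j) = zpow ζ i * zpow ζ j := by
  unfold zpow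
  rw [← pow_add, ZMod.val_add, ← pow_eq_pow_mod _ hζ]

theorem zpow_zero : zpow ζ (0 : ZMod p) = 1 := by
  unfold zpow
  rw [ZMod.val_zero, pow_zero]

theorem zpow_pow (hζ : ζ ^ p = 1) (i : ZMod p) : zpow ζ i ^ p = 1 := by
  unfold zpow
  rw [← pow_mul, mul_comm, pow_mul, hζ, one_pow]

theorem zpow_eq_one_iff (hζ : IsPrimitiveRoot ζ p) (i : ZMod p) : zpow ζ i = 1 ↔ i = 0 := by
  unfold zpow
  rw [hζ.pow_eq_one_iff_dvd, ← ZMod.natCast_eq_zero_iff, ZMod.natCast_zmod_val]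

theorem sum_zpow (hζ : IsPrimitiveRoot ζ p) : ∑ j : ZMod p, zpow ζ j = 0 := by
  have h1 : zpow ζ (1 : ZMod p) * ∑ j : ZMod p, zpow ζ j = ∑ j : ZMod p, zpow ζ j := by
    rw [Finset.mul_sum]
    refine Fintype.sum_equiv (Equiv.addLeft (1 : ZMod p)) _ _ fun j => ?_
    rw [← zpow_add hζ.pow_eq_one]
    rfl
  have h2 : zpow ζ (1 : ZMod p) ≠ 1 := by
    rw [Ne, zpow_eq_one_iff hζ]
    exact one_ne_zero
  have h3 : (zpow ζ (1 : ZMod p) - 1) * ∑ j : ZMod p, zpow ζ j = 0 := by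
    rw [sub_mul, h1, one_mul, sub_self]
  rcases mul_eq_zero.1 h3 with h | h
  · exact absurd (sub_eq_zero.1 h) h2
  · exact h

theorem sum_zpow_mul (hζ : IsPrimitiveRoot ζ p) (i : ZMod p) :
    ∑ j : ZMod p, zpow ζ (-(i * j)) = if i = 0 then (p : AlgebraicClosure ℚ) else 0 := by
  split_ifs with hi
  · subst hi
    simp only [zero_mul, neg_zero, zpow_zero, Finset.sum_const, Finset.card_univ, ZMod.card,
      nsmul_eq_mul, mul_one]
  · rw [← sum_zpow hζ]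
    refine Fintype.sum_equiv (Equiv.mulLeft₀ (-i) (neg_ne_zero.2 hi)) _ _ fun j => ?_
    simp [neg_mul]

end Char

section Resolvent

variable {p : ℕ} (F : IntermediateField ℚ (AlgebraicClosure ℚ))
  [FiniteDimensional ℚ F]

/-- **Lagrange resolvent.** -/
theorem exists_kummer_generator (hp : p.Prime) {ζ : AlgebraicClosure ℚ}
    (hζ : IsPrimitiveRoot ζ p)
    (hζF : ζ ∈ F) (χ : (AlgebraicClosure ℚ ≃ₐ[ℚ] AlgebraicClosure ℚ) → ZMod p)
    (hadd : ∀ σ τ, σ ∈ F.fixingSubgroup → τ ∈ F.fixingSubgroup → χ (σ * τ) = χ σ + χ τ)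
    (hcont : ∃ N : IntermediateField ℚ (AlgebraicClosure ℚ), FiniteDimensional ℚ N ∧
      ∀ σ ∈ F.fixingSubgroup, (∀ x ∈ N, σ x = x) → χ σ = 0)
    (σ₁ : AlgebraicClosure ℚ ≃ₐ[ℚ] AlgebraicClosure ℚ) (hσ₁ : σ₁ ∈ F.fixingSubgroup)
    (hχσ₁ : χ σ₁ ≠ 0) :
    ∃ (α : AlgebraicClosure ℚ) (j : ZMod p), α ≠ 0 ∧ j ≠ 0 ∧
      ∀ σ ∈ F.fixingSubgroup, σ α = ζ ^ (χ σ * j).val * α := by
  classical
  haveI : Fact p.Prime := ⟨hp⟩
  have hζp : ζ ^ p = 1 := hζ.pow_eq_one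
  -- basic properties of `χ`
  have hχ1 : χ 1 = 0 := by
    have := hadd 1 1 (one_mem _) (one_mem _)
    rw [mul_one] at this
    exact left_eq_add.1 this
  have hχinv : ∀ σ ∈ F.fixingSubgroup, χ σ⁻¹ = -χ σ := by
    intro σ hσ
    have := hadd σ σ⁻¹ hσ (inv_mem hσ)
    rw [mul_inv_cancel, hχ1] at this
    exact (neg_eq_of_add_eq_zero_right this.symm).symm
  have hχpow : ∀ n : ℕ, χ (σ₁ ^ n) = n * χ σ₁ := by
    intro n
    induction n with
    | zero => simp [hχ1]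
    | succ n ih =>
      rw [pow_succ, hadd _ _ (pow_mem hσ₁ n) hσ₁, ih]
      push_cast
      ring
  -- the kernel of `χ`
  let H : Subgroup (AlgebraicClosure ℚ ≃ₐ[ℚ] AlgebraicClosure ℚ) :=
    { carrier := {σ | σ ∈ F.fixingSubgroup ∧ χ σ = 0}
      mul_mem' := fun {a b} ha hb => ⟨mul_mem ha.1 hb.1, by rw [hadd a b ha.1 hb.1, ha.2, hb.2, add_zero]⟩
      one_mem' := ⟨one_mem _, hχ1⟩
      inv_mem' := fun {a} ha => ⟨inv_mem ha.1, by rw [hχinv a ha.1, ha.2, neg_zero]⟩ }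
  have hHmem : ∀ σ, σ ∈ H ↔ σ ∈ F.fixingSubgroup ∧ χ σ = 0 := fun σ => Iff.rfl
  obtain ⟨N, hNfd, hN⟩ := hcont
  have hopen : IsOpen (H : Set (AlgebraicClosure ℚ ≃ₐ[ℚ] AlgebraicClosure ℚ)) := by
    have h1 : (F ⊔ N).fixingSubgroup ≤ H := by
      intro σ hσ
      rw [IntermediateField.mem_fixingSubgroup_iff] at hσ
      have hσF : σ ∈ F.fixingSubgroup := by
        rw [IntermediateField.mem_fixingSubgroup_iff]
        exact fun x hx => hσ x ((le_sup_left : F ≤ F ⊔ N) hx)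
      exact ⟨hσF, hN σ hσF fun x hx => hσ x ((le_sup_right : N ≤ F ⊔ N) hx)⟩
    haveI : FiniteDimensional ℚ ↥(F ⊔ N) := IntermediateField.finiteDimensional_sup F N
    exact Subgroup.isOpen_mono h1 (IntermediateField.fixingSubgroup_isOpen (F ⊔ N))
  have hclosed : IsClosed (H : Set (AlgebraicClosure ℚ ≃ₐ[ℚ] AlgebraicClosure ℚ)) :=
    Subgroup.isClosed_of_isOpen H hopen
  have hfix := InfiniteGalois.fixingSubgroup_fixedField
    (⟨H, hclosed⟩ : ClosedSubgroup (AlgebraicClosure ℚ ≃ₐ[ℚ] AlgebraicClosure ℚ))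
  have hσ₁H : σ₁ ∉ H := fun h => hχσ₁ h.2
  -- an element fixed by `H` but moved by `σ₁`
  obtain ⟨θ, hθH, hθσ₁⟩ : ∃ θ : AlgebraicClosure ℚ, (∀ h ∈ H, h θ = θ) ∧ σ₁ θ ≠ θ := by
    by_contra hcon
    push Not at hcon
    apply hσ₁H
    have : σ₁ ∈ (IntermediateField.fixedField H).fixingSubgroup := by
      rw [IntermediateField.mem_fixingSubgroup_iff]
      intro x hx
      apply hcon x
      intro h hh
      exact (IntermediateField.mem_fixedField_iff H x).1 hx h hh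
    rw [hfix] at this
    exact this
  set u : ZMod p := χ σ₁ with hu
  -- the orbit of `θ`
  let Θ : ZMod p → AlgebraicClosure ℚ := fun i => (σ₁ ^ i.val) θ
  have hΘ : ∀ σ ∈ F.fixingSubgroup, ∀ i : ZMod p, σ (Θ i) = Θ (i + χ σ * u⁻¹) := by
    intro σ hσ i
    have hmem : (σ₁ ^ (i + χ σ * u⁻¹).val)⁻¹ * (σ * σ₁ ^ i.val) ∈ H := by
      refine ⟨mul_mem (inv_mem (pow_mem hσ₁ _)) (mul_mem hσ (pow_mem hσ₁ _)), ?_⟩
      rw [hadd _ _ (inv_mem (pow_mem hσ₁ _)) (mul_mem hσ (pow_mem hσ₁ _)),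
        hadd _ _ hσ (pow_mem hσ₁ _), hχinv _ (pow_mem hσ₁ _), hχpow, hχpow,
        ZMod.natCast_zmod_val, ZMod.natCast_zmod_val]
      field_simp
      ring
    have h1 := hθH _ hmem
    have h2 : ((σ₁ ^ (i + χ σ * u⁻¹).val)⁻¹ * (σ * σ₁ ^ i.val)) θ
        = (σ₁ ^ (i + χ σ * u⁻¹).val)⁻¹ (σ ((σ₁ ^ i.val) θ)) := rfl
    rw [h2] at h1
    have h3 := congrArg (σ₁ ^ (i + χ σ * u⁻¹).val) h1
    have h4 : ∀ (g : AlgebraicClosure ℚ ≃ₐ[ℚ] AlgebraicClosure ℚ) (y : AlgebraicClosure ℚ),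
        g (g⁻¹ y) = y := fun g y => by
      show (g * g⁻¹) y = y
      rw [mul_inv_cancel]; rfl
    rw [h4] at h3
    exact h3
  have hσζ : ∀ σ ∈ F.fixingSubgroup, ∀ i : ZMod p, σ (zpow ζ i) = zpow ζ i := by
    intro σ hσ i
    unfold zpow
    rw [map_pow, (IntermediateField.mem_fixingSubgroup_iff F σ).1 hσ ζ hζF]
  -- the resolvents
  let αj : ZMod p → AlgebraicClosure ℚ := fun j => ∑ i : ZMod p, zpow ζ (-(i * j)) * Θ i
  have hαj : ∀ σ ∈ F.fixingSubgroup, ∀ j : ZMod p,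
      σ (αj j) = zpow ζ (χ σ * u⁻¹ * j) * αj j := by
    intro σ hσ j
    simp only [αj]
    rw [map_sum, Finset.mul_sum]
    refine Fintype.sum_equiv (Equiv.addRight (χ σ * u⁻¹)) _ _ fun i => ?_
    rw [map_mul, hσζ σ hσ, hΘ σ hσ, Equiv.coe_addRight, ← mul_assoc, ← zpow_add hζp]
    congr 2
    ring
  have hsum : ∑ j : ZMod p, αj j = (p : AlgebraicClosure ℚ) * θ := by
    simp only [αj]
    rw [Finset.sum_comm]
    simp_rw [← Finset.sum_mul, sum_zpow_mul hζ]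
    rw [Finset.sum_eq_single (0 : ZMod p)]
    · simp [Θ]
    · intro i _ hi
      rw [if_neg hi, zero_mul]
    · intro h
      exact absurd (Finset.mem_univ _) h
  have hu0 : u ≠ 0 := hχσ₁
  obtain ⟨j, hj0, hαj0⟩ : ∃ j : ZMod p, j ≠ 0 ∧ αj j ≠ 0 := by
    by_contra hcon
    push Not at hcon
    have h0 : αj 0 = (p : AlgebraicClosure ℚ) * θ := by
      rw [← hsum, Finset.sum_eq_single (0 : ZMod p)]
      · intro j _ hj
        exact hcon j hj
      · intro h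
        exact absurd (Finset.mem_univ _) h
    have h1 := hαj σ₁ hσ₁ 0
    rw [mul_zero, zpow_zero, one_mul, h0, map_mul, map_natCast] at h1
    have hp0 : (p : AlgebraicClosure ℚ) ≠ 0 := by exact_mod_cast hp.ne_zero
    exact hθσ₁ (mul_left_cancel₀ hp0 h1)
  refine ⟨αj j, u⁻¹ * j, hαj0, mul_ne_zero (inv_ne_zero hu0) hj0, fun σ hσ => ?_⟩
  rw [hαj σ hσ j, mul_assoc]
  rfl

end Resolvent

end Fermat.Agent.S59.H247
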