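import Fermat.Agent.S59.H247.TFRam
import Fermat.Agent.S59.H247.TFResolvent
import Fermat.Agent.S55.H901.SelmerFinite

/-!
# S59 / G3-TF, part 5: finitely many `ℤ/p`-characters of `G_F` unramified outside `S`

For a number field `F ⊆ ℚ̄` containing `μ_p` and a finite set `S` of rational primes there is a
finite extension `M / F` such that every continuous additive character `χ : G_F → ℤ/p` which is
trivial on the groups `I_A ∩ G_F` (`A` over a prime `q ∉ S`) is trivial on `G_M`.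
-/

set_option autoImplicit false
set_option linter.style.haveILetI false
set_option linter.unusedSectionVars false

namespace Fermat.Agent.S59.H247

open NumberField IsDedekindDomain Fermat.Agent.S54 Fermat.Agent.S55.Bridge

attribute [local instance] numberField_of_finiteDimensional isAlgebraic_Qbar

variable (F : IntermediateField ℚ (AlgebraicClosure ℚ)) [FiniteDimensional ℚ F]

/-- the primes of `F` above the primes in `S` -/
def primesAbove (S : Finset ℕ) : Set (HeightOneSpectrum (𝓞 F)) :=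
  {v | ∃ q ∈ S, q.Prime ∧ (q : 𝓞 F) ∈ v.asIdeal}

theorem primesAbove_finite (S : Finset ℕ) : (primesAbove F S).Finite := by
  classical
  have hsub : primesAbove F S ⊆
      ⋃ q ∈ (S.filter Nat.Prime : Finset ℕ),
        {v : HeightOneSpectrum (𝓞 F) | v.asIdeal ∣ Ideal.span {(q : 𝓞 F)}} := by
    rintro v ⟨q, hqS, hq, hqv⟩
    simp only [Set.mem_iUnion]
    refine ⟨q, Finset.mem_filter.2 ⟨hqS, hq⟩, ?_⟩
    show v.asIdeal ∣ Ideal.span {(q : 𝓞 F)}
    rw [Ideal.dvd_span_singleton]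
    exact hqv
  refine (Set.Finite.biUnion (Finset.finite_toSet _) fun q hq => ?_).subset hsub
  apply Ideal.finite_factors
  have hq' : q.Prime := (Finset.mem_filter.1 hq).2
  intro h
  rw [Ideal.zero_eq_bot, Ideal.span_singleton_eq_bot] at h
  exact hq'.ne_zero (by exact_mod_cast h)

/-- finitely many `p`-th roots -/
theorem finite_pow_eq {p : ℕ} (hp : 0 < p) (c : AlgebraicClosure ℚ) :
    {x : AlgebraicClosure ℚ | x ^ p = c}.Finite := by
  have hne : (Polynomial.X ^ p - Polynomial.C c : Polynomial (AlgebraicClosure ℚ)) ≠ 0 :=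
    Polynomial.X_pow_sub_C_ne_zero hp c
  refine (Polynomial.finite_setOfPred_isRoot hne).subset fun x hx => ?_
  show Polynomial.IsRoot _ x
  rw [Polynomial.IsRoot, Polynomial.eval_sub, Polynomial.eval_pow, Polynomial.eval_X,
    Polynomial.eval_C]
  exact sub_eq_zero.2 hx

/-- **Finiteness of `ℤ/p`-characters unramified outside `S`.** -/
theorem exists_bound_field {p : ℕ} (hp : p.Prime) {ζ : AlgebraicClosure ℚ}
    (hζ : IsPrimitiveRoot ζ p) (hζF : ζ ∈ F) (S : Finset ℕ) :
    ∃ M : IntermediateField ℚ (AlgebraicClosure ℚ), FiniteDimensional ℚ M ∧ F ≤ M ∧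
      ∀ χ : (AlgebraicClosure ℚ ≃ₐ[ℚ] AlgebraicClosure ℚ) → ZMod p,
        (∀ σ τ, σ ∈ F.fixingSubgroup → τ ∈ F.fixingSubgroup → χ (σ * τ) = χ σ + χ τ) →
        (∃ N : IntermediateField ℚ (AlgebraicClosure ℚ), FiniteDimensional ℚ N ∧
          ∀ σ ∈ F.fixingSubgroup, (∀ x ∈ N, σ x = x) → χ σ = 0) →
        (∀ q : ℕ, q.Prime → q ∉ S → ∀ A : ValuationSubring (AlgebraicClosure ℚ),
          A.LiesOverPrime q → ∀ σ ∈ A.inertiaSubgroupIn ℚ, σ ∈ F.fixingSubgroup → χ σ = 0) →
        ∀ σ ∈ M.fixingSubgroup, χ σ = 0 := by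
  classical
  haveI : Fact p.Prime := ⟨hp⟩
  have hSF := primesAbove_finite F S
  haveI hSel : Finite (selmerGroup (R := 𝓞 F) (K := F) (S := primesAbove F S) (n := p)) :=
    Fermat.Agent.S55.H901.selmerGroup_finite hSF hp.pos
  let rep : selmerGroup (R := 𝓞 F) (K := F) (S := primesAbove F S) (n := p) → Fˣ :=
    fun g => Quotient.out g.1
  have hrep : ∀ g : selmerGroup (R := 𝓞 F) (K := F) (S := primesAbove F S) (n := p),
      (QuotientGroup.mk (rep g) : Fˣ ⧸ (powMonoidHom p : Fˣ →* Fˣ).range) = g.1 :=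
    fun g => Quotient.out_eq g.1
  let T : Set (AlgebraicClosure ℚ) :=
    ⋃ g : selmerGroup (R := 𝓞 F) (K := F) (S := primesAbove F S) (n := p),
      {x | x ^ p = (((rep g : Fˣ) : F) : AlgebraicClosure ℚ)}
  have hT : T.Finite := Set.finite_iUnion fun g => finite_pow_eq hp.pos _
  haveI : Finite T := hT.to_subtype
  have hTint : ∀ x ∈ T, IsIntegral F x := fun x _ =>
    (Algebra.IsAlgebraic.isAlgebraic (R := ℚ) x).isIntegral.tower_top
  haveI hfd1 : FiniteDimensional F (IntermediateField.adjoin F T) :=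
    IntermediateField.finiteDimensional_adjoin hTint
  set M : IntermediateField ℚ (AlgebraicClosure ℚ) :=
    (IntermediateField.adjoin F T).restrictScalars ℚ with hM
  have hfd : FiniteDimensional ℚ M := by
    have : FiniteDimensional ℚ (IntermediateField.adjoin F T) := Module.Finite.trans F _
    exact this
  have hFM : F ≤ M := fun x hx => (IntermediateField.adjoin F T).algebraMap_mem ⟨x, hx⟩
  refine ⟨M, hfd, hFM, ?_⟩
  intro χ hadd hcont hunr σ₀ hσ₀
  by_contra hχσ₀
  have hσ₀M : ∀ x ∈ M, σ₀ x = x := (IntermediateField.mem_fixingSubgroup_iff M σ₀).1 hσ₀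
  have hσ₀F : σ₀ ∈ F.fixingSubgroup := by
    rw [IntermediateField.mem_fixingSubgroup_iff]
    exact fun x hx => hσ₀M x (hFM hx)
  obtain ⟨α, j, hα0, hj0, hα⟩ := exists_kummer_generator F hp hζ hζF χ hadd hcont σ₀ hσ₀F hχσ₀
  have hζp : ζ ^ p = 1 := hζ.pow_eq_one
  -- `a = α ^ p ∈ F`
  have haF : α ^ p ∈ F := by
    apply mem_of_fixed_by_fixingSubgroup
    intro g hg
    rw [map_pow, hα g hg, mul_pow, ← pow_mul, mul_comm _ p, pow_mul, hζp, one_pow, one_mul]
  have ha0 : (⟨α ^ p, haF⟩ : F) ≠ 0 := by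
    intro h
    have := congrArg Subtype.val h
    exact pow_ne_zero p hα0 this
  set a : Fˣ := Units.mk0 ⟨α ^ p, haF⟩ ha0 with ha
  have hαa : α ^ p = (((a : F)) : AlgebraicClosure ℚ) := rfl
  -- the root of unity by which `σ₀` moves `α`
  set ζ' : AlgebraicClosure ℚ := ζ ^ (χ σ₀ * j).val with hζ'
  have hζ'p : ζ' ^ p = 1 := by
    rw [hζ', ← pow_mul, mul_comm _ p, pow_mul, hζp, one_pow]
  have hζ'1 : ζ' ≠ 1 := by
    rw [hζ', Ne, hζ.pow_eq_one_iff_dvd, ← ZMod.natCast_eq_zero_iff, ZMod.natCast_zmod_val]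
    exact mul_ne_zero hχσ₀ hj0
  have hζ'F : ζ' ∈ F := pow_mem hζF _
  -- divisibility of the valuations outside `S`
  have hdvd : ∀ v : HeightOneSpectrum (𝓞 F), v ∉ primesAbove F S →
      (p : ℤ) ∣ Multiplicative.toAdd (v.valuationOfNeZero a) := by
    intro v hv
    refine dvd_valuationOfNeZero_of_inertia_fixes hp v a hαa hζ'p hζ'1 hζ'F σ₀
      ((IntermediateField.mem_fixingSubgroup_iff F σ₀).1 hσ₀F) (hα σ₀ hσ₀F) ?_
    intro A hA σ hσI hσF
    obtain ⟨q, hq, hAq, hqv⟩ := hA.exists_prime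
    have hqS : q ∉ S := fun h => hv ⟨q, h, hq, hqv⟩
    have hσF' : σ ∈ F.fixingSubgroup := (IntermediateField.mem_fixingSubgroup_iff F σ).2 hσF
    have hχσ : χ σ = 0 := hunr q hq hqS A hAq σ hσI hσF'
    rw [hα σ hσF', hχσ, zero_mul, ZMod.val_zero, pow_zero, one_mul]
  -- the class of `a` lies in the Selmer group
  have hmem : (QuotientGroup.mk a : Fˣ ⧸ (powMonoidHom p : Fˣ →* Fˣ).range) ∈
      selmerGroup (R := 𝓞 F) (K := F) (S := primesAbove F S) (n := p) := by
    intro v hv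
    exact (Fermat.Agent.S55.H901.valuationOfNeZeroMod_mk_eq_one_iff v p a).2 (hdvd v hv)
  have h1 := hrep ⟨_, hmem⟩
  rw [QuotientGroup.eq] at h1
  obtain ⟨b, hb⟩ := h1
  have hb' : b ^ p = (rep ⟨_, hmem⟩)⁻¹ * a := hb
  -- `α / b` is a `p`-th root of a representative
  have hb0 : (((b : F)) : AlgebraicClosure ℚ) ≠ 0 := by
    have := b.ne_zero
    exact_mod_cast this
  have hβ : (α / (((b : F)) : AlgebraicClosure ℚ)) ∈ T := by
    simp only [T, Set.mem_iUnion]
    refine ⟨⟨_, hmem⟩, ?_⟩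
    show (α / (((b : F)) : AlgebraicClosure ℚ)) ^ p = _
    have h2 : (a : Fˣ) = rep ⟨_, hmem⟩ * b ^ p := by
      rw [hb', mul_inv_cancel_left]
    have h3 : (((a : F)) : AlgebraicClosure ℚ)
        = ((((rep ⟨_, hmem⟩ : Fˣ) : F)) : AlgebraicClosure ℚ)
          * (((b : F)) : AlgebraicClosure ℚ) ^ p := by
      have := congrArg (fun u : Fˣ => (((u : F)) : AlgebraicClosure ℚ)) h2
      simpa using this
    rw [div_pow, hαa, h3, mul_div_assoc, div_self (pow_ne_zero p hb0), mul_one]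
  have hβM : (α / (((b : F)) : AlgebraicClosure ℚ)) ∈ M :=
    IntermediateField.subset_adjoin F T hβ
  have hbM : (((b : F)) : AlgebraicClosure ℚ) ∈ M := hFM (b : F).2
  have hαM : α ∈ M := by
    have := M.mul_mem hβM hbM
    rwa [div_mul_cancel₀ _ hb0] at this
  have h4 := hσ₀M α hαM
  rw [hα σ₀ hσ₀F] at h4
  exact hζ'1 (mul_right_cancel₀ hα0 (h4.trans (one_mul α).symm))

end Fermat.Agent.S59.H247
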